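import Fermat.Agent.S56.Euler.H726.Sha1Main
import Fermat.Agent.S55.PT.Top

/-!
# S56 / W-BASE / Euler characteristic, leaf EUL-SHA2 (helper726): final forms

`U` a normal `S`-level of `G_ℚ` acting trivially on `μ_p`, `M` a finite-dimensional
`F_p`-representation of `G_ℚ` on which `U` acts trivially (e.g. `M = μ_p`).

* `exists_sha1_tdual_ind_eq_bot` (UNCONDITIONAL): there is a finite `S′ ⊇ S` with
  `Ш¹_T((Ind_U M)′) = 0` for every finite `T ⊇ S′`;
* `exists_sha2_ind_eq_bot`: hence `Ш²_T(Ind_U M) = 0` for every `T ⊇ S′`, given Theorem D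
  (= frozen S55 in PT vocabulary, `PT.TheoremDSpec p T`) for the sets `T ⊇ S`;
* `exists_sha2_indMu_eq_bot`: the case `M = μ_p` (EUL-SHA2 of `coord/S56-EULER-helper366.md`).
-/

set_option autoImplicit false
set_option linter.style.haveILetI false

noncomputable section

namespace Fermat.Agent.S56.Euler.H726

open Fermat.Agent.S55.PT groupCohomology ExtCitation
open scoped Pointwise

variable (p : ℕ) [Fact p.Prime] (S : Finset Nat.Primes)

/-- the cyclotomic character is trivial on a subgroup acting trivially on `μ_p` -/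
lemma cycloChar_eq_one_of_mu {s : GQ} (h : (mu p).ρ s = 1) : ((cycloChar p s : (ZMod p)ˣ) : ZMod p) = 1 := by
  have h1 : (mu p).ρ s (1 : ZMod p) = (1 : ZMod p) := by rw [h]; rfl
  rw [ofChar_ρ_apply, mul_one] at h1
  exact h1

/-- a normal subgroup acting trivially on `M` and on `μ_p` acts trivially on `(Ind_U M)′` -/
lemma tdual_ind_trivial (U : Subgroup GQ) (hUn : U.Normal) (M : Rep.{0, 0, 0} (ZMod p) GQ)
    (hM : ∀ s ∈ U, M.ρ s = 1) (hχ : ∀ s ∈ U, (mu p).ρ s = 1) (s : GQ) (hs : s ∈ U)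
    (n : tdual p (indRep U M)) : (tdual p (indRep U M)).ρ s n = n := by
  rw [Rep.dualTwist_ρ_apply, cycloChar_eq_one_of_mu p (hχ s hs), one_smul]
  have hact : (indRep U M).ρ s⁻¹ = LinearMap.id := by
    apply Finsupp.lhom_ext
    intro x m
    have h1 : (indRep U M).ρ s⁻¹ (Finsupp.single x m : (GQ ⧸ U) →₀ M) =
        (Finsupp.single (s⁻¹ • x) (M.ρ s⁻¹ m) : (GQ ⧸ U) →₀ M) := indRep_ρ_single U M s⁻¹ x m
    have h2 : s⁻¹ • x = x := by
      obtain ⟨g, rfl⟩ := QuotientGroup.mk_surjective x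
      show ((s⁻¹ * g : GQ) : GQ ⧸ U) = (g : GQ ⧸ U)
      rw [QuotientGroup.eq]
      have : (s⁻¹ * g)⁻¹ * g = g⁻¹ * s * g := by group
      rw [this]
      have := hUn.conj_mem s hs g⁻¹
      rwa [inv_inv] at this
    have h3 : M.ρ s⁻¹ m = m := by rw [hM s⁻¹ (U.inv_mem hs)]; rfl
    rw [h1, h2, h3]
    rfl
  rw [hact]
  rfl

/-- **EUL-SHA2, `Ш¹` form** (unconditional). -/
theorem exists_sha1_tdual_ind_eq_bot (U : Subgroup GQ) (hU : U ∈ (globalLevels S).levels)
    (hUn : U.Normal) (M : Rep.{0, 0, 0} (ZMod p) GQ) [FiniteDimensional (ZMod p) M]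
    (hM : ∀ s ∈ U, M.ρ s = 1) (hχ : ∀ s ∈ U, (mu p).ρ s = 1) :
    ∃ S' : Finset Nat.Primes, S ⊆ S' ∧
      ∀ T : Finset Nat.Primes, S' ⊆ T → Sha1 (hrl T) (tdual p (indRep U M)) = ⊥ := by
  obtain ⟨F, hF, rfl⟩ := hU
  haveI := hF.1
  haveI : Finite (GQ ⧸ F.fixingSubgroup) :=
    Fermat.Agent.S55.H901.finite_quotient_fixingSubgroup F
  haveI : FiniteDimensional (ZMod p) ((GQ ⧸ F.fixingSubgroup) →₀ M) := inferInstance
  haveI : FiniteDimensional (ZMod p) (tdual p (indRep F.fixingSubgroup M)) :=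
    inferInstanceAs (FiniteDimensional (ZMod p)
      (Module.Dual (ZMod p) ((GQ ⧸ F.fixingSubgroup) →₀ M)))
  exact exists_sha1_eq_bot p S (tdual p (indRep F.fixingSubgroup M)) F hF
    (tdual_ind_trivial p F.fixingSubgroup hUn M hM hχ)
    (fun c hc hcU => mem_B1_dualTwist_ind F.fixingSubgroup M (cycloChar p) c hc hcU)

/-- **EUL-SHA2, `Ш²` form**: from Theorem D for the sets `T ⊇ S`. -/
theorem exists_sha2_ind_eq_bot (hD : ∀ T : Finset Nat.Primes, S ⊆ T → TheoremDSpec p T)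
    (U : Subgroup GQ) (hU : U ∈ (globalLevels S).levels)
    (hUn : U.Normal) (M : Rep.{0, 0, 0} (ZMod p) GQ) [FiniteDimensional (ZMod p) M]
    (hM : ∀ s ∈ U, M.ρ s = 1) (hχ : ∀ s ∈ U, (mu p).ρ s = 1) :
    ∃ S' : Finset Nat.Primes, S ⊆ S' ∧
      ∀ T : Finset Nat.Primes, S' ⊆ T → Sha2 (hrl T) (indRep U M) = ⊥ := by
  obtain ⟨S', hSS', h⟩ := exists_sha1_tdual_ind_eq_bot p S U hU hUn M hM hχ
  refine ⟨S', hSS', fun T hT => ?_⟩
  obtain ⟨F, hF, rfl⟩ := hU
  haveI := hF.1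
  haveI : Finite (GQ ⧸ F.fixingSubgroup) :=
    Fermat.Agent.S55.H901.finite_quotient_fixingSubgroup F
  have hfd : FiniteDimensional (ZMod p) (indRep F.fixingSubgroup M) :=
    inferInstanceAs (FiniteDimensional (ZMod p) ((GQ ⧸ F.fixingSubgroup) →₀ M))
  have hsm : (globalLevels T).IsUSmooth (indRep F.fixingSubgroup M) := by
    refine ⟨F.fixingSubgroup, ⟨F, hF.mono (hSS'.trans hT), rfl⟩, fun s hs a => ?_⟩
    have hact : (indRep F.fixingSubgroup M).ρ s = LinearMap.id := by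
      apply Finsupp.lhom_ext
      intro x m
      have h1 : (indRep F.fixingSubgroup M).ρ s
          (Finsupp.single x m : (GQ ⧸ F.fixingSubgroup) →₀ M) =
          (Finsupp.single (s • x) (M.ρ s m) : (GQ ⧸ F.fixingSubgroup) →₀ M) :=
        indRep_ρ_single F.fixingSubgroup M s x m
      have h2 : s • x = x := by
        obtain ⟨g, rfl⟩ := QuotientGroup.mk_surjective x
        show ((s * g : GQ) : GQ ⧸ F.fixingSubgroup) = (g : GQ ⧸ F.fixingSubgroup)
        rw [QuotientGroup.eq]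
        have : (s * g)⁻¹ * g = g⁻¹ * s⁻¹ * g := by group
        rw [this]
        have := hUn.conj_mem s⁻¹ (F.fixingSubgroup.inv_mem hs) g⁻¹
        rwa [inv_inv] at this
      have h3 : M.ρ s m = m := by rw [hM s hs]; rfl
      rw [h1, h2, h3]
      rfl
    rw [hact]
    rfl
  obtain ⟨e⟩ := hD T (hSS'.trans hT) (indRep F.fixingSubgroup M) hfd hsm
  rw [eq_bot_iff]
  intro x hx
  have h0 : e ⟨x, hx⟩ = 0 := by
    apply LinearMap.ext
    intro y
    have hy : y = 0 := by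
      have : (y : (globalLevels T).H1 (tdual p (indRep F.fixingSubgroup M))) ∈
          (⊥ : Submodule (ZMod p) _) := by
        rw [← h T hT]
        exact y.2
      exact Subtype.ext ((Submodule.mem_bot _).1 this)
    rw [hy, map_zero, map_zero]
  have h1 : (⟨x, hx⟩ : ↥(Sha2 (hrl T) (indRep F.fixingSubgroup M))) = 0 :=
    e.injective (by rw [h0, map_zero])
  exact (Submodule.mem_bot _).2 (congrArg Subtype.val h1)

/-- **EUL-SHA2** for `Ind_U μ_p`. -/
theorem exists_sha2_indMu_eq_bot (hD : ∀ T : Finset Nat.Primes, S ⊆ T → TheoremDSpec p T)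
    (U : Subgroup GQ) (hU : U ∈ (globalLevels S).levels)
    (hUn : U.Normal) (hχ : ∀ s ∈ U, (mu p).ρ s = 1) :
    ∃ S' : Finset Nat.Primes, S ⊆ S' ∧
      ∀ T : Finset Nat.Primes, S' ⊆ T → Sha2 (hrl T) (indRep U (mu p)) = ⊥ :=
  exists_sha2_ind_eq_bot p S hD U hU hUn (mu p) hχ hχ

end Fermat.Agent.S56.Euler.H726

end
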