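import Fermat.Agent.S55.PT.Setup

/-!
# S56 / W-BASE / Euler characteristic, leaf EUL-SHA2 (helper726): abstract part

Plain cocycle lemmas for an arbitrary group `G` and `N : Rep k G`:

* `coc_mul`, `coc_one`, `coc_inv` : the cocycle identity in plain form;
* `zeroSub c hc`                  : the zero set of a cocycle is a subgroup;
* `coc_mul_right_of_zero`         : right invariance under the zero set;
* `cob_conj`                      : a cocycle which is a coboundary on `σ` is a coboundary on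
                                    `g σ g⁻¹` (explicit 0-cochain);
* `mem_B1_dualTwist_ind`          : **contracting homotopy**: a cocycle with values in
  `(Ind_U M)′ = (indRep U M).dualTwist χ` which vanishes on `U` is a coboundary
  (`H¹(G/U, coinduced) = 0`, explicit formula, no finiteness, no normality).
-/

set_option autoImplicit false

noncomputable section

namespace Fermat.Agent.S56.Euler.H726

open Fermat.Agent.S55.PT groupCohomology

section Abs

variable {k : Type} [Field k] {G : Type} [Group G] (N : Rep.{0, 0, 0} k G)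

lemma coc_mul {c : G → N} (hc : c ∈ cocycles₁ N) (g h : G) :
    c (g * h) = N.ρ g (c h) + c g :=
  (mem_cocycles₁_iff c).1 hc g h

lemma coc_one {c : G → N} (hc : c ∈ cocycles₁ N) : c 1 = 0 := by
  have h := coc_mul N hc 1 1
  rw [mul_one, map_one, Module.End.one_apply] at h
  have h2 : c 1 + 0 = c 1 + c 1 := by rw [add_zero]; exact h
  exact (add_left_cancel h2).symm

lemma rho_inv_apply (g : G) (x : N) : N.ρ g⁻¹ (N.ρ g x) = x := by
  rw [← Module.End.mul_apply, ← map_mul, inv_mul_cancel, map_one, Module.End.one_apply]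

lemma rho_apply_inv (g : G) (x : N) : N.ρ g (N.ρ g⁻¹ x) = x := by
  rw [← Module.End.mul_apply, ← map_mul, mul_inv_cancel, map_one, Module.End.one_apply]

lemma coc_inv {c : G → N} (hc : c ∈ cocycles₁ N) (g : G) :
    c g⁻¹ = - N.ρ g⁻¹ (c g) := by
  have h := coc_mul N hc g⁻¹ g
  rw [inv_mul_cancel, coc_one N hc] at h
  exact eq_neg_of_add_eq_zero_right h.symm

/-- The zero set of a cocycle is a subgroup. -/
def zeroSub (c : G → N) (hc : c ∈ cocycles₁ N) : Subgroup G where
  carrier := {s | c s = 0}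
  one_mem' := coc_one N hc
  mul_mem' := by
    intro a b ha hb
    have ha' : c a = 0 := ha
    have hb' : c b = 0 := hb
    show c (a * b) = 0
    rw [coc_mul N hc, ha', hb', map_zero, add_zero]
  inv_mem' := by
    intro a ha
    have ha' : c a = 0 := ha
    show c a⁻¹ = 0
    rw [coc_inv N hc, ha', map_zero, neg_zero]

lemma mem_zeroSub {c : G → N} (hc : c ∈ cocycles₁ N) (s : G) :
    s ∈ zeroSub N c hc ↔ c s = 0 := Iff.rfl

lemma coc_mul_right_of_zero {c : G → N} (hc : c ∈ cocycles₁ N) (g s : G) (hs : c s = 0) :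
    c (g * s) = c g := by
  rw [coc_mul N hc, hs, map_zero, zero_add]

/-- Conjugation of a local coboundary. -/
lemma cob_conj {c : G → N} (hc : c ∈ cocycles₁ N) (g σ : G) (n : N)
    (h : c σ = N.ρ σ n - n) :
    c (g * σ * g⁻¹) = N.ρ (g * σ * g⁻¹) (N.ρ g n - c g) - (N.ρ g n - c g) := by
  have e1 : c (g * σ * g⁻¹) = N.ρ (g * σ) (c g⁻¹) + c (g * σ) := coc_mul N hc _ _
  have e2 : c (g * σ) = N.ρ g (c σ) + c g := coc_mul N hc _ _
  have e3 : N.ρ (g * σ) (c g⁻¹) = - N.ρ (g * σ * g⁻¹) (c g) := by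
    rw [coc_inv N hc, map_neg, ← Module.End.mul_apply, ← map_mul]
  have e4 : N.ρ (g * σ * g⁻¹) (N.ρ g n) = N.ρ g (N.ρ σ n) := by
    rw [← Module.End.mul_apply, ← map_mul, inv_mul_cancel_right, map_mul, Module.End.mul_apply]
  rw [e1, e2, e3, h, map_sub, map_sub, e4]
  abel

end Abs

section Homotopy

variable {k : Type} [Field k] {G : Type} [Group G]
variable (U : Subgroup G) (M : Rep.{0, 0, 0} k G) (χ : G →* kˣ)

/-- the `0`-cochain of the contracting homotopy -/
def homotopyElt (c : G → ((indRep U M).dualTwist χ)) : ((G ⧸ U) →₀ M) →ₗ[k] k :=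
  - Finsupp.lsum k (fun x : G ⧸ U =>
      ((c (Quotient.out x) : ((G ⧸ U) →₀ M) →ₗ[k] k)).comp (Finsupp.lsingle x))

lemma homotopyElt_single (c : G → ((indRep U M).dualTwist χ)) (x : G ⧸ U) (m : M) :
    homotopyElt U M χ c (Finsupp.single x m) =
      - (c (Quotient.out x) : ((G ⧸ U) →₀ M) →ₗ[k] k) (Finsupp.single x m) := by
  unfold homotopyElt
  rw [LinearMap.neg_apply, Finsupp.lsum_single]
  rfl

/-- **Contracting homotopy.**  A cocycle with values in `(Ind_U M)′` which vanishes on `U` is a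
coboundary. -/
theorem mem_B1_dualTwist_ind (c : G → ((indRep U M).dualTwist χ))
    (hc : c ∈ cocycles₁ ((indRep U M).dualTwist χ)) (hU : ∀ u ∈ U, c u = 0) :
    c ∈ LevelSys.B1 ((indRep U M).dualTwist χ) := by
  refine ⟨(homotopyElt U M χ c : Module.Dual k ((G ⧸ U) →₀ M)), ?_⟩
  funext g
  rw [d₀₁_hom_apply]
  -- compare the two functionals on `single x m`
  have key : ∀ (x : G ⧸ U) (m : M),
      (((indRep U M).dualTwist χ).ρ g (homotopyElt U M χ c) - homotopyElt U M χ c :
        ((G ⧸ U) →₀ M) →ₗ[k] k) (Finsupp.single x m) =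
      (c g : ((G ⧸ U) →₀ M) →ₗ[k] k) (Finsupp.single x m) := by
    intro x m
    -- `out x = g * out (g⁻¹ • x) * u`
    have hx : ((g * Quotient.out (g⁻¹ • x) : G) : G ⧸ U) = x := by
      have h1 : ((g * Quotient.out (g⁻¹ • x) : G) : G ⧸ U) =
          g • ((Quotient.out (g⁻¹ • x) : G) : G ⧸ U) := rfl
      rw [h1, QuotientGroup.out_eq', smul_inv_smul]
    have hx' : ((Quotient.out x : G) : G ⧸ U) = ((g * Quotient.out (g⁻¹ • x) : G) : G ⧸ U) := by
      rw [hx, QuotientGroup.out_eq']
    obtain ⟨u, hu, hu'⟩ : ∃ u ∈ U, Quotient.out x = g * Quotient.out (g⁻¹ • x) * u := by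
      have := QuotientGroup.eq.1 hx'.symm
      exact ⟨_, this, by group⟩
    have hcx : c (Quotient.out x) =
        ((indRep U M).dualTwist χ).ρ g (c (Quotient.out (g⁻¹ • x))) + c g := by
      rw [hu', coc_mul_right_of_zero _ hc _ u (hU u hu), coc_mul _ hc]
    rw [LinearMap.sub_apply, Rep.dualTwist_ρ_apply, LinearMap.smul_apply, LinearMap.comp_apply,
      homotopyElt_single]
    have hact : (indRep U M).ρ g⁻¹ (Finsupp.single x m : (G ⧸ U) →₀ M) =
        (Finsupp.single (g⁻¹ • x) (M.ρ g⁻¹ m) : (G ⧸ U) →₀ M) := indRep_ρ_single U M g⁻¹ x m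
    rw [hact, homotopyElt_single, hcx]
    rw [LinearMap.add_apply, Rep.dualTwist_ρ_apply, LinearMap.smul_apply, LinearMap.comp_apply,
      hact]
    simp only [smul_eq_mul, mul_neg, neg_add_rev]
    ring
  have : (((indRep U M).dualTwist χ).ρ g (homotopyElt U M χ c) - homotopyElt U M χ c :
        ((G ⧸ U) →₀ M) →ₗ[k] k) = (c g : ((G ⧸ U) →₀ M) →ₗ[k] k) := by
    apply Finsupp.lhom_ext
    exact key
  exact this

end Homotopy

end Fermat.Agent.S56.Euler.H726

end
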