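import Fermat.Agent.S56.Euler.H726.Sha1Abs
import Fermat.Agent.S55.PT.FinGlobH593
import Fermat.Agent.Lib.Cheb.FrobeniusDivision
import Fermat.Agent.Lib.Cheb.H476.FrobConj
import Fermat.Agent.S55.BLocal.Prime
import Fermat.Agent.S55.Bridge.Level

/-!
# S56 / W-BASE / Euler characteristic, leaf EUL-SHA2 (helper726): local triviality

`N : Rep (ZMod p) G_ℚ`, `c` a cocycle.

* `IsLocTriv N c v`      : `c ∘ rl v` is a coboundary of the local group at `v` (the condition
                           defining `Ш¹`);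
* `exists_cob_on_decomposition` : then `c` is a coboundary on the decomposition group of EVERY
                           valuation subring `A` of `ℚ̄` over `v`;
* `eq_zero_of_mem_decomposition` : if moreover `σ ∈ D_A` acts trivially on `N` then `c σ = 0`.
-/

set_option autoImplicit false

noncomputable section

namespace Fermat.Agent.S56.Euler.H726

open Fermat.Agent.S55.PT groupCohomology ExtCitation
open scoped Pointwise

variable {p : ℕ} [Fact p.Prime] (N : Rep.{0, 0, 0} (ZMod p) GQ)

/-- `c` is locally trivial at `v`: its restriction to the local Galois group at `v` is a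
coboundary. -/
def IsLocTriv (c : GQ → N) (v : Nat.Primes) : Prop :=
  ∃ n : N, ∀ g : Gl v, c (rl v g) = N.ρ (rl v g) n - n

/-- A locally trivial cocycle is a coboundary on the decomposition group of the Prelude place. -/
lemma exists_cob_on_primeLocalPlace {c : GQ → N} {v : Nat.Primes} (h : IsLocTriv N c v) :
    ∃ n : N, ∀ σ ∈ (primeLocalPlace v).decompositionSubgroup ℚ, c σ = N.ρ σ n - n := by
  obtain ⟨n, hn⟩ := h
  refine ⟨n, fun σ hσ => ?_⟩
  obtain ⟨g, rfl⟩ := Fermat.Agent.S55.BLocal.exists_primeLocalToGlobal_eq v σ hσ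
  exact hn g

/-- A locally trivial cocycle is a coboundary on the decomposition group of every valuation
subring over `v`. -/
theorem exists_cob_on_decomposition {c : GQ → N} (hc : c ∈ cocycles₁ N) {v : Nat.Primes}
    (h : IsLocTriv N c v) (A : ValuationSubring (AlgebraicClosure ℚ))
    (hA : A.LiesOverPrime (v : ℕ)) :
    ∃ n : N, ∀ σ ∈ A.decompositionSubgroup ℚ, c σ = N.ρ σ n - n := by
  obtain ⟨n, hn⟩ := exists_cob_on_primeLocalPlace N h
  obtain ⟨g, hg⟩ := Fermat.Agent.Lib.Cheb.H476.exists_smul_eq v.2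
    (Fermat.Agent.S55.BLocal.primeLocalPlace_liesOver v) hA
  refine ⟨N.ρ g n - c g, fun σ hσ => ?_⟩
  -- `g⁻¹ σ g ∈ D₀`
  have h1 : g⁻¹ * σ * g⁻¹⁻¹ ∈ (g⁻¹ • A).decompositionSubgroup ℚ :=
    Fermat.Agent.Lib.Cheb.H476.conj_mem_decomposition g⁻¹ hσ
  have h2 : g⁻¹ • A = primeLocalPlace v := by
    rw [← hg, inv_smul_smul]
  rw [h2, inv_inv] at h1
  have h3 := cob_conj N hc g (g⁻¹ * σ * g) n (hn _ h1)
  have h4 : g * (g⁻¹ * σ * g) * g⁻¹ = σ := by group
  rw [h4] at h3
  exact h3

/-- A locally trivial cocycle vanishes on the elements of the decomposition groups over `v`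
which act trivially on `N`. -/
theorem eq_zero_of_mem_decomposition {c : GQ → N} (hc : c ∈ cocycles₁ N) {v : Nat.Primes}
    (h : IsLocTriv N c v) (A : ValuationSubring (AlgebraicClosure ℚ))
    (hA : A.LiesOverPrime (v : ℕ)) {σ : GQ} (hσ : σ ∈ A.decompositionSubgroup ℚ)
    (htriv : ∀ n : N, N.ρ σ n = n) : c σ = 0 := by
  obtain ⟨n, hn⟩ := exists_cob_on_decomposition N hc h A hA
  rw [hn σ hσ, htriv, sub_self]

/-- The inertia group is contained in the decomposition group. -/
lemma inertia_le_decomposition (A : ValuationSubring (AlgebraicClosure ℚ)) :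
    A.inertiaSubgroupIn ℚ ≤ A.decompositionSubgroup ℚ := by
  rintro σ ⟨g, -, rfl⟩
  exact g.2

/-- Local triviality of a class in `Ш¹`, in plain form. -/
theorem isLocTriv_of_mem_Sha1 (T : Finset Nat.Primes) (c : ↥((globalLevels T).Z1 N))
    (hx : (globalLevels T).H1π N c ∈ Sha1 (hrl T) N) (v : Nat.Primes) (hv : v ∈ T) :
    IsLocTriv N (c : GQ → N) v := by
  have h1 : loc1 (hrl T) N ((globalLevels T).H1π N c) = 0 := hx
  have h2 : resH1 (hrl T ⟨v, hv⟩) N ((globalLevels T).H1π N c) = 0 := by
    have := congrFun h1 ⟨v, hv⟩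
    simpa using this
  rw [resH1_mk, LevelSys.H1π_eq_zero_iff] at h2
  obtain ⟨n, hn⟩ := h2
  refine ⟨n, fun g => ?_⟩
  have h3 := congrFun hn g
  rw [res_d₀₁] at h3
  simp only [coe_resZ1, Function.comp_apply, d₀₁_hom_apply] at h3
  exact h3.symm

end Fermat.Agent.S56.Euler.H726

end
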