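import Fermat.Agent.S56.Euler.H726.Sha1Loc

/-!
# S56 / W-BASE / Euler characteristic, leaf EUL-SHA2 (helper726): `Ш¹` vanishes for large `S′`

`N` a finite-dimensional `F_p`-representation of `G_ℚ`, trivial on `U = G_F`, `F/ℚ` finite
unramified outside `S`, and `U`-ACYCLIC: every cocycle `G_ℚ → N` vanishing on `U` is a coboundary.

**Theorem** (`exists_sha1_eq_bot`).  There is a finite `S′ ⊇ S` such that `Ш¹_T(N) = 0` for every
finite `T ⊇ S′`.

Proof.  A class of `Ш¹_T(N)` is represented by a cocycle `c` which is a coboundary on every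
decomposition group over `T`, hence (as `U` acts trivially on `N`) vanishes on `D_A ∩ U` for all
`A` over `T`; in particular it vanishes on all inertia groups outside `S`, so that `c` is an
`S`-level cocycle (`mem_Z1_of_locTriv`).  By the uniform level bound (helper901/helper593) all
`S`-level cocycles vanish on `G_E` for one finite `E ⊇ F`.  Choose for every coset `x` of `G_E` a
prime `ℓ_x ∉ S` and a Frobenius `τ_x` over `ℓ_x` with `τ_x ^ j = x` on `E` (Frobenius division,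
`Lib.Cheb` Tier 1) and put `S′ = S ∪ {ℓ_x}`.  Then for `σ ∈ U`, `x = σ G_E`:
`c σ = c (τ_x ^ j) = 0` because `τ_x ^ j ∈ D ∩ U`.  So `c` vanishes on `U` and is a coboundary.
-/

set_option autoImplicit false
set_option linter.style.haveILetI false

noncomputable section

namespace Fermat.Agent.S56.Euler.H726

open Fermat.Agent.S55.PT groupCohomology ExtCitation
open scoped Pointwise

variable (p : ℕ) [Fact p.Prime] (S : Finset Nat.Primes) (N : Rep.{0, 0, 0} (ZMod p) GQ)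

/-- A `T`-level cocycle which is locally trivial at all `v ∈ T`, with values in a module which
is trivial on an `S`-level `G_F`, is an `S`-level cocycle. -/
theorem mem_Z1_of_locTriv {T : Finset Nat.Primes}
    (F : IntermediateField ℚ (AlgebraicClosure ℚ)) (hF : F.IsUnramifiedOutside S)
    (htriv : ∀ s ∈ F.fixingSubgroup, ∀ n : N, N.ρ s n = n)
    (c : GQ → N) (hc : c ∈ (globalLevels T).Z1 N) (hloc : ∀ v ∈ T, IsLocTriv N c v) :
    c ∈ (globalLevels S).Z1 N := by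
  obtain ⟨hc1, W, ⟨FT, hFT, rfl⟩, hW⟩ := hc
  have hWz : FT.fixingSubgroup ≤ zeroSub N c hc1 := fun s hs => by
    show c s = 0
    have := hW 1 s hs
    rw [one_mul, coc_one N hc1] at this
    exact this
  have hin : ∀ q : Nat.Primes, q ∉ S → ∀ A : ValuationSubring (AlgebraicClosure ℚ),
      A.LiesOverPrime (q : ℕ) → A.inertiaSubgroupIn ℚ ≤ zeroSub N c hc1 := by
    intro q hq A hA s hs
    by_cases hqT : q ∈ T
    · exact eq_zero_of_mem_decomposition N hc1 (hloc q hqT) A hA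
        (inertia_le_decomposition A hs) (htriv s (hF.2 q hq A hA hs))
    · exact hWz (hFT.2 q hqT A hA hs)
  obtain ⟨L, hL, hLfix, -⟩ := Fermat.Agent.S55.Bridge.exists_level_of_subgroup S
    (zeroSub N c hc1) FT hFT.1 hWz hin
  refine ⟨hc1, L.fixingSubgroup, ⟨L, hL, rfl⟩, fun g s hs => ?_⟩
  rw [hLfix] at hs
  exact coc_mul_right_of_zero N hc1 g s hs

/-- **EUL-SHA2, general form.**  `Ш¹_T(N) = 0` for all `T ⊇ S′`, for `U`-acyclic `N`. -/
theorem exists_sha1_eq_bot [FiniteDimensional (ZMod p) N]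
    (F : IntermediateField ℚ (AlgebraicClosure ℚ)) (hF : F.IsUnramifiedOutside S)
    (htriv : ∀ s ∈ F.fixingSubgroup, ∀ n : N, N.ρ s n = n)
    (hacyc : ∀ c : GQ → N, c ∈ cocycles₁ N → (∀ u ∈ F.fixingSubgroup, c u = 0) →
      c ∈ LevelSys.B1 N) :
    ∃ S' : Finset Nat.Primes, S ⊆ S' ∧
      ∀ T : Finset Nat.Primes, S' ⊆ T → Sha1 (hrl T) N = ⊥ := by
  classical
  have hUS : (globalLevels S).IsUSmooth N := ⟨F.fixingSubgroup, ⟨F, hF, rfl⟩, htriv⟩
  obtain ⟨Lmax, hLfin, hL⟩ := Fermat.Agent.S55.PT.H593.exists_level_bound_Z1 p S N hUS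
  haveI := hLfin
  haveI := hF.1
  haveI hEfin : FiniteDimensional ℚ ↥(Lmax ⊔ F) := IntermediateField.finiteDimensional_sup Lmax F
  haveI : Finite (GQ ⧸ (Lmax ⊔ F).fixingSubgroup) :=
    Fermat.Agent.S55.H901.finite_quotient_fixingSubgroup (Lmax ⊔ F)
  have hfrob := fun x : GQ ⧸ (Lmax ⊔ F).fixingSubgroup =>
    Fermat.Agent.Lib.Cheb.frobeniusDivision (Lmax ⊔ F) hEfin (Quotient.out x)
      (S.image (fun q : Nat.Primes => (q : ℕ)))
  choose ℓ A τ k j hℓ hℓS hA hτ hI hk hj using hfrob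
  letI := Fintype.ofFinite (GQ ⧸ (Lmax ⊔ F).fixingSubgroup)
  refine ⟨S ∪ Finset.univ.image (fun x => (⟨ℓ x, hℓ x⟩ : Nat.Primes)),
    Finset.subset_union_left, fun T hT => ?_⟩
  rw [eq_bot_iff]
  intro x hx
  obtain ⟨c, rfl⟩ := (globalLevels T).H1π_surjective N x
  rw [Submodule.mem_bot, LevelSys.H1π_eq_zero_iff]
  have hloc : ∀ v ∈ T, IsLocTriv N (c : GQ → N) v :=
    fun v hv => isLocTriv_of_mem_Sha1 N T c hx v hv
  have hcS : (c : GQ → N) ∈ (globalLevels S).Z1 N :=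
    mem_Z1_of_locTriv p S N F hF htriv c c.2 hloc
  have hc1 : (c : GQ → N) ∈ cocycles₁ N := c.2.1
  have hE : ∀ s ∈ (Lmax ⊔ F).fixingSubgroup, (c : GQ → N) s = 0 := fun s hs =>
    hL ⟨c, hcS⟩ s (IntermediateField.fixingSubgroup_antitone le_sup_left hs)
  apply hacyc _ hc1
  intro σ hσ
  obtain ⟨x, hx⟩ : ∃ x : GQ ⧸ (Lmax ⊔ F).fixingSubgroup, x = (σ : GQ ⧸ (Lmax ⊔ F).fixingSubgroup) :=
    ⟨_, rfl⟩
  have h1 : (Quotient.out x)⁻¹ * σ ∈ (Lmax ⊔ F).fixingSubgroup :=
    QuotientGroup.eq.1 ((QuotientGroup.out_eq' x).trans hx)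
  have h2 : ((τ x) ^ (j x))⁻¹ * Quotient.out x ∈ (Lmax ⊔ F).fixingSubgroup := by
    rw [IntermediateField.mem_fixingSubgroup_iff]
    intro y hy
    have := hj x y hy
    show ((τ x) ^ (j x))⁻¹ (Quotient.out x y) = y
    rw [← this]
    exact Fermat.Agent.Lib.Cheb.H476.inv_apply_apply _ y
  have h3 : ((τ x) ^ (j x))⁻¹ * σ ∈ (Lmax ⊔ F).fixingSubgroup := by
    have := (Lmax ⊔ F).fixingSubgroup.mul_mem h2 h1
    have e : ((τ x) ^ (j x))⁻¹ * Quotient.out x * ((Quotient.out x)⁻¹ * σ) =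
        ((τ x) ^ (j x))⁻¹ * σ := by group
    rwa [e] at this
  have h4 : σ = (τ x) ^ (j x) * (((τ x) ^ (j x))⁻¹ * σ) := by group
  rw [h4, coc_mul_right_of_zero N hc1 _ _ (hE _ h3)]
  have hτD : (τ x) ^ (j x) ∈ (A x).decompositionSubgroup ℚ :=
    Subgroup.pow_mem _ (hτ x).mem_decompositionSubgroup _
  have hτU : (τ x) ^ (j x) ∈ F.fixingSubgroup := by
    have e : (τ x) ^ (j x) = σ * (((τ x) ^ (j x))⁻¹ * σ)⁻¹ := by group
    rw [e]
    exact F.fixingSubgroup.mul_mem hσ (F.fixingSubgroup.inv_mem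
      (IntermediateField.fixingSubgroup_antitone le_sup_right h3))
  have hℓT : (⟨ℓ x, hℓ x⟩ : Nat.Primes) ∈ T :=
    hT (Finset.mem_union_right _ (Finset.mem_image_of_mem _ (Finset.mem_univ x)))
  exact eq_zero_of_mem_decomposition N hc1 (hloc _ hℓT) (A x) (hA x) hτD (htriv _ hτU)

end Fermat.Agent.S56.Euler.H726

end
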